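import Mathlib.RingTheory.RingHom.QuasiFinite
import Mathlib.RingTheory.DedekindDomain.Factorization
import Fermat.Agent.RelJac.DomainTensor

/-!
A nonconstant element of a finitely generated Dedekind algebra over an algebraically closed field
gives a quasi-finite map from the polynomial ring.
-/

open Polynomial

namespace Fermat.Agent.RelJac.Curve

universe u

variable {k : Type u} [Field k] [IsAlgClosed k] {A : Type u} [CommRing A] [IsDomain A]

/-- A nonconstant element is transcendental. -/
theorem eval₂_eq_zero_iff_of_forall_ne (φ : k →+* A) (t : A) (ht : ∀ r, t ≠ φ r) (g : k[X]) :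
    g.eval₂ φ t = 0 ↔ g = 0 := by
  refine ⟨fun h => ?_, fun h => by simp [h]⟩
  have hg := (IsAlgClosed.splits g).eq_prod_roots
  rw [hg, eval₂_mul, eval₂_C, eval₂_multiset_prod, Multiset.map_map, mul_eq_zero] at h
  rcases h with h | h
  · rw [map_eq_zero] at h
    exact leadingCoeff_eq_zero.1 h
  · obtain ⟨r, -, hr⟩ := Multiset.mem_map.1 (Multiset.prod_eq_zero_iff.1 h)
    refine absurd ?_ (ht r)
    simpa [sub_eq_zero] using hr

omit [IsDomain A] in
/-- A nonconstant element gives a quasi-finite map from the polynomial ring. -/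
theorem quasiFinite_eval₂ [IsDedekindDomain A] (φ : k →+* A) (hφ : φ.FiniteType) (t : A)
    (ht : ∀ r, t ≠ φ r) : (eval₂RingHom φ t).QuasiFinite := by
  let : Algebra k A := φ.toAlgebra
  let : Algebra k[X] A := (eval₂RingHom φ t).toAlgebra
  have hmap : ∀ g : k[X], algebraMap k[X] A g = g.eval₂ φ t := fun _ => rfl
  have : IsScalarTower k k[X] A := IsScalarTower.of_algebraMap_eq fun r => by
    rw [hmap, Polynomial.algebraMap_eq, eval₂_C]; rfl
  have : Algebra.FiniteType k A := hφ
  have : Algebra.FiniteType k[X] A := Algebra.FiniteType.of_restrictScalars_finiteType k k[X] A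
  change Algebra.QuasiFinite k[X] A
  rw [Algebra.QuasiFinite.iff_finite_primesOver]
  intro I _
  by_cases hI : I = ⊥
  · refine (Set.finite_singleton (⊥ : Ideal A)).subset ?_
    rintro J ⟨hJ, hJo⟩
    by_contra hJ0
    have : J.IsMaximal := hJ.isMaximal hJ0
    obtain ⟨ψ, hψ⟩ := exists_point_ker_eq (k := k) J
    have hmem : (X - C (ψ t) : k[X]) ∈ J.under k[X] := by
      rw [Ideal.under_def, Ideal.mem_comap, ← hψ, RingHom.mem_ker, hmap, eval₂_sub, eval₂_X,
        eval₂_C, map_sub, sub_eq_zero]
      exact (ψ.commutes (ψ t)).symm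
    rw [← hJo.over, hI, Ideal.mem_bot] at hmem
    exact X_sub_C_ne_zero _ hmem
  · obtain ⟨g, hg, hg0⟩ := Submodule.exists_mem_ne_zero_of_ne_bot hI
    have hg0' : algebraMap k[X] A g ≠ 0 := mt (eval₂_eq_zero_iff_of_forall_ne φ t ht g).1 hg0
    refine ((Ideal.finite_factors (R := A) (I := Ideal.span {algebraMap k[X] A g})
      (by simpa using hg0')).image (fun v => v.asIdeal)).subset ?_
    rintro J ⟨hJ, hJo⟩
    have hgJ : algebraMap k[X] A g ∈ J := by
      rwa [hJo.over, Ideal.under_def, Ideal.mem_comap] at hg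
    refine ⟨⟨J, hJ, fun h => hg0' (by simpa [h] using hgJ)⟩, ?_, rfl⟩
    exact Ideal.dvd_iff_le.2 ((Ideal.span_singleton_le_iff_mem J).2 hgJ)

end Fermat.Agent.RelJac.Curve
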