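import Mathlib.RingTheory.Smooth.StandardSmoothCotangent
import Mathlib.RingTheory.DedekindDomain.Dvr
import Mathlib.RingTheory.DiscreteValuationRing.TFAE
import Mathlib.LinearAlgebra.FreeModule.Finite.Basic
import Fermat.Agent.RelJac.DomainTensor

/-!
A domain which is standard smooth of relative dimension one over an algebraically closed field is
a Dedekind domain: at a maximal ideal the cotangent space embeds into the fibre of the module of
differentials, which is a line.
-/

open scoped TensorProduct
open IsLocalRing

namespace Fermat.Agent.RelJac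

universe u v

variable (k : Type u) [Field k] [IsAlgClosed k] {A : Type v} [CommRing A] [IsDomain A] [Algebra k A]
  [Algebra.IsStandardSmoothOfRelativeDimension 1 k A]

include k in
/-- Every maximal ideal is generated by one element modulo its square. -/
theorem exists_le_span_singleton_sup_sq (m : Ideal A) [m.IsMaximal] :
    ∃ π ∈ m, m ≤ Ideal.span {π} ⊔ m ^ 2 := by
  have : Algebra.IsStandardSmooth k A :=
    Algebra.IsStandardSmoothOfRelativeDimension.isStandardSmooth 1
  obtain ⟨φ, hφ⟩ := exists_point_ker_eq (k := k) m
  let : Algebra A k := φ.toRingHom.toAlgebra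
  have hmap : ∀ a, algebraMap A k a = φ a := fun _ => rfl
  have : IsScalarTower k A k := IsScalarTower.of_algebraMap_eq fun r => by
    rw [hmap, AlgHom.commutes]
  have hs : Function.Surjective (algebraMap A k) := fun r => ⟨algebraMap k A r, by simp [hmap]⟩
  have hker : RingHom.ker (algebraMap A k) = m := by rw [← hφ]; rfl
  have hinj : Function.Injective (KaehlerDifferential.kerCotangentToTensor k A k) :=
    (Algebra.FormallySmooth.kerCotangentToTensor_injective_iff hs).2 inferInstance
  have hrk : Module.finrank A (Ω[A⁄k]) = 1 :=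
    Module.finrank_eq_of_rank_eq (n := 1) (mod_cast
      Algebra.IsStandardSmoothOfRelativeDimension.rank_kaehlerDifferential (R := k) (S := A) 1)
  have : Module.Finite A (Ω[A⁄k]) := inferInstance
  have hV : Module.finrank k (k ⊗[A] Ω[A⁄k]) = 1 := by
    rw [Module.finrank_baseChange, hrk]
  obtain ⟨e⟩ := FiniteDimensional.nonempty_linearEquiv_of_finrank_eq
    (hV.trans (Module.finrank_self k).symm)
  let f : A → k := fun a => e (1 ⊗ₜ KaehlerDifferential.D k A a)
  have hf0 : ∀ a ∈ m, f a = 0 → a ∈ m ^ 2 := fun a ha h0 => by
    have ha' : a ∈ RingHom.ker (algebraMap A k) := hker.symm ▸ ha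
    have : Ideal.toCotangent _ ⟨a, ha'⟩ = 0 := hinj (by
      rw [KaehlerDifferential.kerCotangentToTensor_toCotangent, map_zero]
      exact e.map_eq_zero_iff.1 h0)
    rw [Ideal.toCotangent_eq_zero] at this
    exact (by rw [hker] : RingHom.ker (algebraMap A k) ^ 2 ≤ m ^ 2) this
  have hfsub : ∀ a b (r : k), f (a - r • b) = f a - r * f b := fun a b r => by
    simp only [f, map_sub, TensorProduct.tmul_sub, Derivation.map_smul, TensorProduct.tmul_smul,
      map_smul, smul_eq_mul]
  by_cases hall : ∀ a ∈ m, f a = 0
  · exact ⟨0, m.zero_mem, fun a ha => Ideal.mem_sup_right (hf0 a ha (hall a ha))⟩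
  push Not at hall
  obtain ⟨π, hπ, hπ0⟩ := hall
  refine ⟨π, hπ, fun a ha => ?_⟩
  have hmem : a - (f a / f π) • π ∈ m ^ 2 :=
    hf0 _ (sub_mem ha (Submodule.smul_of_tower_mem m _ hπ))
      (by rw [hfsub, div_mul_cancel₀ _ hπ0, sub_self])
  rw [← add_sub_cancel ((f a / f π) • π) a]
  exact add_mem (Ideal.mem_sup_left
    (Submodule.smul_of_tower_mem _ _ (Ideal.mem_span_singleton_self π))) (Ideal.mem_sup_right hmem)

variable (A) in
include k in
/-- A domain standard smooth of relative dimension one over `k` is not a field. -/
theorem not_isField_of_isStandardSmooth : ¬ IsField A := fun hA => by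
  have : Algebra.IsStandardSmooth k A :=
    Algebra.IsStandardSmoothOfRelativeDimension.isStandardSmooth 1
  have : (⊥ : Ideal A).IsMaximal := by
    obtain ⟨M, hM⟩ := Ideal.exists_maximal A
    rwa [← ((@Ideal.eq_bot_or_top _ hA.toField.toDivisionSemiring M)).resolve_right hM.ne_top]
  obtain ⟨φ, hφ⟩ := exists_point_ker_eq (k := k) (⊥ : Ideal A)
  have hinj : Function.Injective φ := (RingHom.injective_iff_ker_eq_bot φ.toRingHom).2 hφ
  have : Subsingleton (Ω[A⁄k]) := KaehlerDifferential.subsingleton_of_surjective k A
    fun a => ⟨φ a, hinj (by rw [AlgHom.commutes]; rfl)⟩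
  have h := Algebra.IsStandardSmoothOfRelativeDimension.rank_kaehlerDifferential (R := k) (S := A) 1
  rw [rank_subsingleton'] at h
  exact zero_ne_one (h.trans Nat.cast_one)

variable (A) in
include k in
/-- A domain standard smooth of relative dimension one over `k` is a Dedekind domain. -/
theorem isDedekindDomain_of_isStandardSmooth : IsDedekindDomain A := by
  have : Algebra.IsStandardSmooth k A :=
    Algebra.IsStandardSmoothOfRelativeDimension.isStandardSmooth 1
  have : IsNoetherianRing A := Algebra.FiniteType.isNoetherianRing k A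
  have key : ∀ (m : Ideal A) [m.IsMaximal],
      (maximalIdeal (Localization.AtPrime m)).IsPrincipal := fun m _ => by
    obtain ⟨π, hπ, hle⟩ := exists_le_span_singleton_sup_sq k m
    refine ⟨⟨algebraMap A _ π, le_antisymm ?_ ?_⟩⟩
    · refine Submodule.le_of_le_smul_of_le_jacobson_bot (I := maximalIdeal _)
        (IsNoetherian.noetherian _) (maximalIdeal_le_jacobson _) ?_
      conv_lhs => rw [← Localization.AtPrime.map_eq_maximalIdeal]
      refine (Ideal.map_mono hle).trans ?_
      rw [Ideal.map_sup, Ideal.map_span, Set.image_singleton, Ideal.map_pow,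
        Localization.AtPrime.map_eq_maximalIdeal, pow_two]
      rfl
    · rw [← Ideal.span, Ideal.span_singleton_le_iff_mem,
        ← Localization.AtPrime.map_eq_maximalIdeal]
      exact Ideal.mem_map_of_mem _ hπ
  suffices IsDedekindDomainDvr A from inferInstance
  refine { is_dvr_at_nonzero_prime := fun P hP hPp => ?_ }
  obtain ⟨m, hm, hPm⟩ := Ideal.exists_le_maximal P hPp.ne_top
  obtain ⟨-, huniq⟩ := ((tfae_of_isNoetherianRing_of_isLocalRing_of_isDomain
    (R := Localization.AtPrime m)).out 4 3).1 (key m)
  have hdisj : Disjoint (m.primeCompl : Set A) (P : Set A) :=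
    Set.disjoint_left.2 fun x hx hxP => hx (hPm hxP)
  have hc := IsLocalization.under_map_of_isPrime_disjoint m.primeCompl
    (Localization.AtPrime m) hPp hdisj
  have hmax := huniq (P.map (algebraMap A (Localization.AtPrime m)))
    (fun h0 => hP (by
      rw [← hc, h0]
      exact Ideal.comap_bot_of_injective _
        (IsLocalization.injective _ m.primeCompl_le_nonZeroDivisors)))
    (IsLocalization.isPrime_of_isPrime_disjoint _ _ P hPp hdisj)
  obtain rfl : P = m := by
    rw [← hc, hmax]
    exact IsLocalization.AtPrime.under_maximalIdeal (Localization.AtPrime m) m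
  have hnf := IsLocalization.AtPrime.not_isField A hP (Localization.AtPrime P)
  exact ((IsDiscreteValuationRing.TFAE _ hnf).out 4 0).1 (key P)

end Fermat.Agent.RelJac
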