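import Mathlib.AlgebraicGeometry.Morphisms.Smooth
import Fermat.Agent.RelJac.CurveModel.SmoothDedekind

/-!
Local rings and affine coordinate rings of a smooth integral curve over an algebraically closed
field.
-/

open CategoryTheory AlgebraicGeometry IsLocalRing

namespace Fermat.Agent.RelJac.Curve

universe u

variable {k : Type u} [Field k] {C : Scheme.{u}} (c : C ⟶ Spec (CommRingCat.of k))

/-- The structure map `k → Γ(C, U)`. -/
noncomputable def gammaHom (U : C.Opens) : k →+* Γ(C, U) :=
  ((Scheme.ΓSpecIso (CommRingCat.of k)).inv ≫ c.appLE ⊤ U le_top).hom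

/-- Restriction fixes constants. -/
theorem map_gammaHom {U V : C.Opens} (h : V ≤ U) (r : k) :
    C.presheaf.map (homOfLE h).op (gammaHom c U r) = gammaHom c V r := by
  simp only [gammaHom, CommRingCat.hom_comp, RingHom.comp_apply]
  rw [← CommRingCat.comp_apply, Scheme.Hom.appLE_map]

theorem opens_spec_eq_top (U : (Spec (CommRingCat.of k)).Opens) (p : Spec (CommRingCat.of k))
    (hp : p ∈ U) : U = ⊤ :=
  top_le_iff.1 fun q _ => by
    have : Subsingleton (Spec (CommRingCat.of k)) := inferInstanceAs (Subsingleton (PrimeSpectrum k))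
    exact Subsingleton.elim p q ▸ hp

variable [IsAlgClosed k] [SmoothOfRelativeDimension 1 c] [IsIntegral C]

include c in
/-- Every point has an affine neighbourhood whose coordinate ring is a Dedekind domain. -/
theorem exists_isDedekindDomain_nhds (x : C) :
    ∃ V : C.Opens, IsAffineOpen V ∧ x ∈ V ∧ IsDedekindDomain Γ(C, V) ∧ ¬ IsField Γ(C, V) := by
  obtain ⟨U, -, V, hV, hx, e, hf⟩ :=
    SmoothOfRelativeDimension.exists_isStandardSmoothOfRelativeDimension (n := 1) (f := c) x
  obtain rfl := opens_spec_eq_top U _ (e hx)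
  have : Nonempty V := ⟨⟨x, hx⟩⟩
  let : Algebra k Γ(C, V) := (gammaHom c V).toAlgebra
  have : Algebra.IsStandardSmoothOfRelativeDimension 1 k Γ(C, V) :=
    RingHom.isStandardSmoothOfRelativeDimension_respectsIso.right _
      (Scheme.ΓSpecIso (CommRingCat.of k)).symm.commRingCatIsoToRingEquiv hf
  exact ⟨V, hV, hx, isDedekindDomain_of_isStandardSmooth k _, not_isField_of_isStandardSmooth k _⟩

include c in
/-- The local rings of the curve are principal ideal domains. -/
theorem isPrincipalIdealRing_stalk (x : C) : IsPrincipalIdealRing (C.presheaf.stalk x) := by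
  obtain ⟨V, hV, hx, hD, -⟩ := exists_isDedekindDomain_nhds c x
  let := TopCat.Presheaf.algebra_section_stalk C.presheaf (⟨x, hx⟩ : V)
  have : IsLocalization.AtPrime (C.presheaf.stalk x) (hV.primeIdealOf ⟨x, hx⟩).asIdeal :=
    hV.isLocalization_stalk ⟨x, hx⟩
  have : Nonempty V := ⟨⟨x, hx⟩⟩
  have : IsDedekindDomain (C.presheaf.stalk x) :=
    IsLocalization.AtPrime.isDedekindDomain Γ(C, V) (hV.primeIdealOf ⟨x, hx⟩).asIdeal _
  exact ((tfae_of_isNoetherianRing_of_isLocalRing_of_isDomain
    (R := C.presheaf.stalk x)).out 2 0).1 this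

include c in
/-- The local rings of the curve at closed points are not fields. -/
theorem not_isField_stalk_of_isClosed (x : C) (hc : IsClosed {x}) :
    ¬ IsField (C.presheaf.stalk x) := by
  obtain ⟨V, hV, hx, hD, hnf⟩ := exists_isDedekindDomain_nhds c x
  let := TopCat.Presheaf.algebra_section_stalk C.presheaf (⟨x, hx⟩ : V)
  have : IsLocalization.AtPrime (C.presheaf.stalk x) (hV.primeIdealOf ⟨x, hx⟩).asIdeal :=
    hV.isLocalization_stalk ⟨x, hx⟩
  have : Nonempty V := ⟨⟨x, hx⟩⟩
  exact IsLocalization.AtPrime.not_isField Γ(C, V)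
    (Ring.ne_bot_of_isMaximal_of_not_isField (hV.primeIdealOf_isMaximal_of_isClosed ⟨x, hx⟩ hc) hnf) _

include c in
/-- The local rings of the curve are valuation rings. -/
theorem valuationRing_stalk (x : C) : ValuationRing (C.presheaf.stalk x) :=
  have := isPrincipalIdealRing_stalk c x
  inferInstance

include c in
/-- Every nonempty affine open of the curve has a Dedekind domain as coordinate ring. -/
theorem isDedekindDomain_of_isAffineOpen {V : C.Opens} (hV : IsAffineOpen V) [Nonempty V] :
    IsDedekindDomain Γ(C, V) := by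
  have := SmoothOfRelativeDimension.smooth 1 c
  have : IsLocallyNoetherian C := LocallyOfFiniteType.isLocallyNoetherian c
  have : IsNoetherianRing Γ(C, V) := IsLocallyNoetherian.component_noetherian ⟨V, hV⟩
  suffices IsDedekindDomainDvr Γ(C, V) from inferInstance
  refine { is_dvr_at_nonzero_prime := fun P hP hPp => ?_ }
  have hy : hV.fromSpec ⟨P, hPp⟩ ∈ V := hV.range_fromSpec.le ⟨⟨P, hPp⟩, rfl⟩
  let := TopCat.Presheaf.algebra_section_stalk C.presheaf (⟨_, hy⟩ : V)
  have : IsLocalization.AtPrime (C.presheaf.stalk (hV.fromSpec ⟨P, hPp⟩)) P :=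
    hV.isLocalization_stalk' ⟨P, hPp⟩ hy
  have : IsPrincipalIdealRing (C.presheaf.stalk (hV.fromSpec ⟨P, hPp⟩)) :=
    isPrincipalIdealRing_stalk c _
  let e := IsLocalization.algEquiv P.primeCompl (C.presheaf.stalk (hV.fromSpec ⟨P, hPp⟩))
    (Localization.AtPrime P)
  have : IsPrincipalIdealRing (Localization.AtPrime P) :=
    IsPrincipalIdealRing.of_surjective e.toRingEquiv.toRingHom e.surjective
  exact { not_a_field' := fun h =>
            IsLocalization.AtPrime.not_isField Γ(C, V) hP (Localization.AtPrime P)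
              (isField_iff_maximalIdeal_eq.2 h) }

end Fermat.Agent.RelJac.Curve
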