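import Mathlib.AlgebraicGeometry.Morphisms.QuasiFinite
import Fermat.Agent.RelJac.CurveModel.Stalks
import Fermat.Agent.RelJac.CurveModel.QuasiFinite

/-!
The map to the affine line given by a regular function, and its quasi-finiteness on a smooth curve.
-/

open CategoryTheory AlgebraicGeometry Opposite

namespace Fermat.Agent.RelJac.Curve

universe u

variable {k : Type u} [Field k] {Y : Scheme.{u}} (g : Y ⟶ Spec (CommRingCat.of k)) (t : Γ(Y, ⊤))

/-- Evaluation of polynomials at a global function. -/
noncomputable def toLineHom : Polynomial k →+* Γ(Y, ⊤) :=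
  Polynomial.eval₂RingHom (gammaHom g ⊤) t

/-- The map to the affine line given by a global function. -/
noncomputable def toLine : Y ⟶ Spec (CommRingCat.of (Polynomial k)) :=
  Y.toSpecΓ ≫ Spec.map (CommRingCat.ofHom (toLineHom g t))

/-- The map to the line sends the coordinate to the given function. -/
theorem toLineHom_X : toLineHom g t Polynomial.X = t := Polynomial.eval₂_X _ _

/-- The map to the line sends constants to constants. -/
theorem toLineHom_C (r : k) : toLineHom g t (Polynomial.C r) = gammaHom g ⊤ r :=
  Polynomial.eval₂_C _ _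

/-- The map to the line is a map over the field. -/
@[reassoc]
theorem toLine_comp : toLine g t ≫ Spec.map (CommRingCat.ofHom Polynomial.C) = g := by
  rw [toLine, Category.assoc, ← Spec.map_comp]
  have h : CommRingCat.ofHom (Polynomial.C (R := k)) ≫ CommRingCat.ofHom (toLineHom g t) =
      (Scheme.ΓSpecIso (CommRingCat.of k)).inv ≫ g.appTop := by
    ext r
    refine (toLineHom_C g t r).trans ?_
    simp [gammaHom, Scheme.Hom.appTop, Scheme.Hom.app_eq_appLE]
  rw [h, Spec.map_comp, ← Scheme.toSpecΓ_naturality_assoc, toSpecΓ_SpecMap_ΓSpecIso_inv]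
  exact Category.comp_id g

/-- The map on global functions of the map to the line. -/
theorem toLine_appTop :
    (toLine g t).appTop = (Scheme.ΓSpecIso (CommRingCat.of (Polynomial k))).hom ≫
      CommRingCat.ofHom (toLineHom g t) := by
  rw [toLine, Scheme.Hom.comp_appTop, Scheme.toSpecΓ_appTop, Scheme.ΓSpecIso_naturality]

/-- The coordinate of the line pulls back to the given function. -/
theorem toLine_appTop_X :
    (toLine g t).appTop ((Scheme.ΓSpecIso (CommRingCat.of (Polynomial k))).inv Polynomial.X) = t := by
  rw [toLine_appTop, CommRingCat.comp_apply]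
  erw [Iso.inv_hom_id_apply]
  exact toLineHom_X g t

variable [IsAlgClosed k] [SmoothOfRelativeDimension 1 g] [IsIntegral Y]

/-- A nonconstant function on a smooth curve gives a quasi-finite map to the line. -/
theorem locallyQuasiFinite_toLine (ht : ∀ r, t ≠ gammaHom g ⊤ r) :
    LocallyQuasiFinite (toLine g t) := by
  rw [HasRingHomProperty.iff_exists_appLE (P := @LocallyQuasiFinite)
    (RingHom.QuasiFinite.stableUnderComposition.stableUnderCompositionWithLocalizationAway
      RingHom.QuasiFinite.holdsForLocalizationAway).1]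
  intro y
  obtain ⟨_, ⟨V, hV, rfl⟩, hyV, -⟩ :=
    Y.isBasis_affineOpens.exists_subset_of_mem_open (Set.mem_univ y) isOpen_univ
  refine ⟨⟨⊤, isAffineOpen_top _⟩, ⟨V, hV⟩, hyV, le_top, ?_⟩
  have : Nonempty V := ⟨⟨y, hyV⟩⟩
  have := isDedekindDomain_of_isAffineOpen g hV
  have := SmoothOfRelativeDimension.smooth 1 g
  have hft : (gammaHom g V).FiniteType := by
    have h := HasRingHomProperty.appLE (P := @LocallyOfFiniteType) g inferInstance
      ⟨⊤, isAffineOpen_top _⟩ ⟨V, hV⟩ (le_top : V ≤ _)
    exact RingHom.finiteType_respectsIso.right _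
      (Scheme.ΓSpecIso (CommRingCat.of k)).symm.commRingCatIsoToRingEquiv h
  have hne : ∀ r, Y.presheaf.map (homOfLE (le_top : V ≤ ⊤)).op t ≠ gammaHom g V r := fun r h =>
    ht r (map_injective_of_isIntegral Y (homOfLE (le_top : V ≤ ⊤))
      (h.trans (map_gammaHom g le_top r).symm))
  have hq := quasiFinite_eval₂ (gammaHom g V) hft _ hne
  have he : (toLine g t).appLE ⊤ V le_top =
      (Scheme.ΓSpecIso (CommRingCat.of (Polynomial k))).hom ≫
        CommRingCat.ofHom (Polynomial.eval₂RingHom (gammaHom g V)
          (Y.presheaf.map (homOfLE (le_top : V ≤ ⊤)).op t)) := by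
    have h1 : (toLine g t).appLE ⊤ V le_top =
        (toLine g t).appTop ≫ Y.presheaf.map (homOfLE le_top).op := rfl
    rw [h1, toLine_appTop, Category.assoc]
    congr 1
    ext : 1
    refine Polynomial.ringHom_ext (fun r => ?_) ?_
    · simp [toLineHom_C, map_gammaHom]
    · simp [toLineHom_X]
  rw [he]
  exact RingHom.QuasiFinite.propertyIsLocal.respectsIso.right _
    (Scheme.ΓSpecIso (CommRingCat.of (Polynomial k))).commRingCatIsoToRingEquiv hq

end Fermat.Agent.RelJac.Curve
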