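import Mathlib.AlgebraicGeometry.FunctionField
import Mathlib.RingTheory.Valuation.ValuationRing

/-!
The open set on which a rational function on an integral scheme is regular, and the section it
defines there.
-/

open CategoryTheory AlgebraicGeometry TopologicalSpace Opposite

namespace Fermat.Agent.RelJac.Curve

universe u

variable {C : Scheme.{u}} [IsIntegral C]

/-- Passing to the function field commutes with restriction. -/
theorem germToFunctionField_res {U V : C.Opens} [Nonempty U] [Nonempty V] (i : V ⟶ U)
    (s : Γ(C, U)) :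
    C.germToFunctionField V (C.presheaf.map i.op s) = C.germToFunctionField U s :=
  C.presheaf.germ_res_apply i _ _ s

/-- The points at which a rational function is regular. -/
noncomputable def regularLocus (x : C.functionField) : C.Opens where
  carrier := {p | x ∈ Set.range (algebraMap (C.presheaf.stalk p) C.functionField)}
  is_open' := by
    rw [isOpen_iff_forall_mem_open]
    rintro p ⟨a, rfl⟩
    obtain ⟨V, hpV, s, rfl⟩ := C.presheaf.exists_germ_eq a
    have : Nonempty V := ⟨⟨p, hpV⟩⟩
    refine ⟨V, fun q hq => ⟨C.presheaf.germ V q hq s, ?_⟩, V.isOpen, hpV⟩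
    rw [Scheme.algebraMap_germ_eq_germToFunctionField, Scheme.algebraMap_germ_eq_germToFunctionField]

/-- Sections over an open set are regular there. -/
theorem le_regularLocus {U : C.Opens} [Nonempty U] (s : Γ(C, U)) :
    U ≤ regularLocus (C.germToFunctionField U s) := fun p hp =>
  ⟨C.presheaf.germ U p hp s, Scheme.algebraMap_germ_eq_germToFunctionField C hp s⟩

/-- The generic point is in every regular locus. -/
theorem genericPoint_mem_regularLocus (x : C.functionField) :
    genericPoint C ∈ regularLocus x := by
  obtain ⟨U, hU, s, rfl⟩ := C.presheaf.exists_germ_eq x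
  have : Nonempty U := ⟨⟨_, hU⟩⟩
  exact le_regularLocus s hU

/-- A function regular on an open set is given by a section there. -/
theorem exists_section (x : C.functionField) (U : C.Opens) [hU : Nonempty U]
    (h : U ≤ regularLocus x) : ∃ s : Γ(C, U), C.germToFunctionField U s = x := by
  have key : ∀ p : U, ∃ (V : C.Opens) (_ : Nonempty V) (hp : (p : C) ∈ V) (_ : V ≤ U) (t : Γ(C, V)),
      C.germToFunctionField V t = x := by
    rintro ⟨p, hp⟩
    obtain ⟨a, ha⟩ := h hp
    obtain ⟨V, hpV, t, rfl⟩ := C.presheaf.exists_germ_eq a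
    have : Nonempty V := ⟨⟨p, hpV⟩⟩
    have : Nonempty (V ⊓ U : C.Opens) := ⟨⟨p, hpV, hp⟩⟩
    refine ⟨V ⊓ U, this, ⟨hpV, hp⟩, inf_le_right,
      C.presheaf.map (homOfLE (inf_le_left : V ⊓ U ≤ V)).op t, ?_⟩
    rw [germToFunctionField_res, ← ha, Scheme.algebraMap_germ_eq_germToFunctionField]
  choose V hne hpV hVU t ht using key
  obtain ⟨s, hs, -⟩ := C.sheaf.existsUnique_gluing' V U (fun p => homOfLE (hVU p))
    (fun p hp => Opens.mem_iSup.2 ⟨⟨p, hp⟩, hpV ⟨p, hp⟩⟩) t (by
      intro p q
      have hg : ∀ r, genericPoint C ∈ V r := fun r =>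
        ((genericPoint_spec C).mem_open_set_iff (V r).isOpen).2 (by simpa using hne r)
      have : Nonempty (V p ⊓ V q : C.Opens) := ⟨⟨_, hg p, hg q⟩⟩
      apply Scheme.germToFunctionField_injective C (V p ⊓ V q)
      exact (germToFunctionField_res (Opens.infLELeft (V p) (V q)) (t p)).trans ((ht p).trans
        ((ht q).symm.trans (germToFunctionField_res (Opens.infLERight (V p) (V q)) (t q)).symm)))
  obtain ⟨⟨p, hp⟩⟩ := id hU
  refine ⟨s, ?_⟩
  rw [← ht ⟨p, hp⟩, ← hs ⟨p, hp⟩]
  exact (germToFunctionField_res _ s).symm

/-- A function and its inverse have complementary regular loci when local rings are valuation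
rings. -/
theorem regularLocus_sup_inv (hv : ∀ p : C, ValuationRing (C.presheaf.stalk p))
    (x : C.functionField) : regularLocus x ⊔ regularLocus x⁻¹ = ⊤ := by
  refine top_le_iff.1 fun p _ => ?_
  have := hv p
  exact (ValuationRing.isInteger_or_isInteger (C.presheaf.stalk p) x).imp id id

/-- Inside the regular locus of `x`, that of `x⁻¹` is the nonvanishing locus of `x`. -/
theorem regularLocus_inf_inv {x : C.functionField} (hx : x ≠ 0) [Nonempty (regularLocus x)]
    (s : Γ(C, regularLocus x)) (hs : C.germToFunctionField (regularLocus x) s = x) :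
    regularLocus x ⊓ regularLocus x⁻¹ = C.basicOpen s := by
  ext p
  constructor
  · rintro ⟨hp, b, hb⟩
    rw [SetLike.mem_coe, Scheme.mem_basicOpen C s p hp]
    refine IsUnit.of_mul_eq_one b (IsFractionRing.injective (C.presheaf.stalk p) C.functionField ?_)
    rw [map_mul, map_one, Scheme.algebraMap_germ_eq_germToFunctionField, hs, hb, mul_inv_cancel₀ hx]
  · intro hp
    have hpU : p ∈ regularLocus x := C.basicOpen_le s hp
    rw [SetLike.mem_coe, Scheme.mem_basicOpen C s p hpU] at hp
    refine ⟨hpU, ((hp.unit⁻¹ : (C.presheaf.stalk p)ˣ) : C.presheaf.stalk p), ?_⟩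
    rw [map_units_inv]
    simp [hs]

end Fermat.Agent.RelJac.Curve
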