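import Mathlib.AlgebraicGeometry.ZariskisMainTheorem
import Mathlib.AlgebraicGeometry.ValuativeCriterion
import Fermat.Agent.RelJac.CurveModel.Regular
import Fermat.Agent.RelJac.CurveModel.Line

/-!
The regular locus of a nonconstant rational function on a proper smooth curve is finite over the
affine line.
-/

open CategoryTheory AlgebraicGeometry Opposite IsLocalRing

namespace Fermat.Agent.RelJac.Curve

universe u

variable {k : Type u} [Field k] {C : Scheme.{u}} (c : C ⟶ Spec (CommRingCat.of k)) [IsIntegral C]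

omit [IsIntegral C] in
/-- Restriction to an open subscheme, as an `appLE`. -/
theorem ι_appLE_eq_topIso_inv (U : C.Opens) (h : (⊤ : U.toScheme.Opens) ≤ U.ι ⁻¹ᵁ U) :
    U.ι.appLE U ⊤ h = U.topIso.inv := by
  rw [Scheme.Opens.ι_appLE]
  exact congrArg C.presheaf.map (Subsingleton.elim _ _)

section Existence

variable (x : C.functionField) (U : C.Opens) (hU : U = regularLocus x) [Nonempty U] (s : Γ(C, U))
  (hs : C.germToFunctionField U s = x) (hx : x ≠ 0)
  (hv : ∀ p : C, ValuationRing (C.presheaf.stalk p))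

include hU hs hx hv in
/-- The existence part of the valuative criterion for the map to the line. -/
theorem existence_toLine [IsProper c] :
    ValuativeCriterion.Existence
      (toLine (U.ι ≫ c) (U.topIso.inv s)) := by
  intro S
  set a : Spec (CommRingCat.of S.K) ⟶ Spec (CommRingCat.of S.R) :=
    Spec.map (CommRingCat.ofHom (algebraMap S.R S.K)) with ha
  have hsq := S.commSq.w
  set j : Spec (CommRingCat.of S.K) ⟶ C := S.i₁ ≫ U.ι with hj
  have w : j ≫ c = a ≫ (S.i₂ ≫ Spec.map (CommRingCat.ofHom Polynomial.C)) := by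
    rw [← Category.assoc, ← hsq]
    simp only [hj, Category.assoc, toLine_comp]
  obtain ⟨l, hl⟩ : ∃ l : Spec (CommRingCat.of S.R) ⟶ C, a ≫ l = j := by
    obtain ⟨⟨L⟩⟩ :=
      (UniversallyClosed.eq_valuativeCriterion.le _ _ _ (inferInstance : UniversallyClosed c)).1
        ⟨S.R, S.K, j, S.i₂ ≫ Spec.map (CommRingCat.ofHom Polynomial.C), ⟨w⟩⟩
    exact ⟨L.l, L.fac_left⟩
  have ainj : Function.Injective a.appTop := by
    have h : a.appTop = ((Scheme.ΓSpecIso (CommRingCat.of S.R)).hom ≫
        CommRingCat.ofHom (algebraMap S.R S.K)) ≫ (Scheme.ΓSpecIso (CommRingCat.of S.K)).inv := by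
      rw [← Scheme.ΓSpecIso_naturality, ← ha, Category.assoc, Iso.hom_inv_id, Category.comp_id]
    rw [h]
    intro p q hpq
    exact (ConcreteCategory.bijective_of_isIso (Scheme.ΓSpecIso (CommRingCat.of S.R)).hom).1
      (IsFractionRing.injective S.R S.K
        ((ConcreteCategory.bijective_of_isIso (Scheme.ΓSpecIso (CommRingCat.of S.K)).inv).1 hpq))
  have hp : l (closedPoint S.R) ∈ U := by
    have hcov : l (closedPoint S.R) ∈ U ⊔ regularLocus x⁻¹ := by
      have h := regularLocus_sup_inv hv x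
      rw [← hU] at h
      rw [h]; trivial
    rcases hcov with hp | hp
    · exact hp
    obtain ⟨W, hW⟩ : ∃ W, W = regularLocus x⁻¹ := ⟨_, rfl⟩
    rw [← hW] at hp
    have : Nonempty W := ⟨⟨_, hp⟩⟩
    obtain ⟨w, hw⟩ := exists_section x⁻¹ W hW.le
    have hlW : (⊤ : (Spec (CommRingCat.of S.R)).Opens) ≤ l ⁻¹ᵁ W := fun q _ =>
      (IsLocalRing.specializes_closedPoint q).mem_open (l ⁻¹ᵁ W).isOpen hp
    have hjU : (⊤ : (Spec (CommRingCat.of S.K)).Opens) ≤ j ⁻¹ᵁ U := fun q _ => (S.i₁ q).2
    have hjW : (⊤ : (Spec (CommRingCat.of S.K)).Opens) ≤ j ⁻¹ᵁ W := fun q _ => by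
      show j q ∈ W
      rw [← hl]
      exact hlW (Set.mem_univ (a q))
    have hjUW : (⊤ : (Spec (CommRingCat.of S.K)).Opens) ≤ j ⁻¹ᵁ (U ⊓ W) := fun q h =>
      ⟨hjU h, hjW h⟩
    let X' : Γ(Spec (CommRingCat.of (Polynomial k)), ⊤) :=
      (Scheme.ΓSpecIso (CommRingCat.of (Polynomial k))).inv Polynomial.X
    have h1 : a.appTop (S.i₂.appTop X') = j.appLE U ⊤ hjU s := by
      have e1 : a.appTop (S.i₂.appTop X') =
          S.i₁.appTop ((toLine (U.ι ≫ c) (U.topIso.inv s)).appTop X') := by
        rw [← CommRingCat.comp_apply, ← Scheme.Hom.comp_appTop, ← hsq,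
          Scheme.Hom.comp_appTop, CommRingCat.comp_apply]
      rw [e1, toLine_appTop_X]
      have e2 : U.topIso.inv ≫ S.i₁.appTop = j.appLE U ⊤ hjU := by
        have e3 : S.i₁.appTop = S.i₁.appLE ⊤ ⊤ le_top := by simp [Scheme.Hom.appLE, Scheme.Hom.appTop]
        refine (congrArg (· ≫ S.i₁.appTop) (ι_appLE_eq_topIso_inv U (fun q _ => q.2)).symm).trans ?_
        rw [e3, Scheme.Hom.appLE_comp_appLE]
      rw [← e2, CommRingCat.comp_apply]
    have h2 : a.appTop (l.appLE W ⊤ hlW w) = j.appLE W ⊤ hjW w := by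
      have e2 : l.appLE W ⊤ hlW ≫ a.appTop = j.appLE W ⊤ hjW := by
        have e3 : a.appTop = a.appLE ⊤ ⊤ le_top := by simp [Scheme.Hom.appLE, Scheme.Hom.appTop]
        simp only [e3, Scheme.Hom.appLE_comp_appLE]
        congr 1
      rw [← e2, CommRingCat.comp_apply]
    have : Nonempty (U ⊓ W : C.Opens) :=
      ⟨⟨_, hU.ge (genericPoint_mem_regularLocus x), hW.ge (genericPoint_mem_regularLocus x⁻¹)⟩⟩
    have h3 : j.appLE U ⊤ hjU s * j.appLE W ⊤ hjW w = 1 := by
      have eU : C.presheaf.map (homOfLE (inf_le_left : U ⊓ W ≤ U)).op ≫ j.appLE (U ⊓ W) ⊤ hjUW =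
          j.appLE U ⊤ hjU := Scheme.Hom.map_appLE _ _ _
      have eW : C.presheaf.map (homOfLE (inf_le_right : U ⊓ W ≤ W)).op ≫ j.appLE (U ⊓ W) ⊤ hjUW =
          j.appLE W ⊤ hjW := Scheme.Hom.map_appLE _ _ _
      rw [← eU, ← eW, CommRingCat.comp_apply, CommRingCat.comp_apply, ← map_mul]
      refine (congrArg _ ?_).trans (map_one _)
      apply Scheme.germToFunctionField_injective C (U ⊓ W)
      rw [map_mul, map_one, germToFunctionField_res, germToFunctionField_res, hs, hw,
        mul_inv_cancel₀ hx]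
    have hu : IsUnit (l.appLE W ⊤ hlW w) := by
      refine IsUnit.of_mul_eq_one_right (S.i₂.appTop X') (ainj ?_)
      rw [map_mul, map_one, h1, h2, h3]
    have hb : l (closedPoint S.R) ∈ C.basicOpen w := by
      show closedPoint S.R ∈ l ⁻¹ᵁ C.basicOpen w
      rw [Scheme.preimage_basicOpen]
      have h := Scheme.basicOpen_of_isUnit (Spec (CommRingCat.of S.R)) hu
      rw [Scheme.Hom.appLE, CommRingCat.comp_apply, Scheme.basicOpen_res] at h
      exact (h.ge trivial).2
    rw [Scheme.mem_basicOpen C w _ hp] at hb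
    refine hU.ge ⟨((hb.unit⁻¹ : (C.presheaf.stalk (l (closedPoint S.R)))ˣ) :
      C.presheaf.stalk (l (closedPoint S.R))), ?_⟩
    rw [map_units_inv]
    simp [hw]
  have hrange : Set.range l ⊆ Set.range U.ι := by
    rw [Scheme.Opens.range_ι]
    rintro _ ⟨q, rfl⟩
    exact (IsLocalRing.specializes_closedPoint q).mem_open (l ⁻¹ᵁ U).isOpen hp
  have h₁ : a ≫ IsOpenImmersion.lift U.ι l hrange = S.i₁ := by
    rw [← cancel_mono U.ι, Category.assoc, IsOpenImmersion.lift_fac, hl]
  refine ⟨⟨⟨IsOpenImmersion.lift U.ι l hrange, h₁, ext_of_isAffine ?_⟩⟩⟩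
  ext z
  apply ainj
  rw [← CommRingCat.comp_apply, ← CommRingCat.comp_apply, ← Scheme.Hom.comp_appTop,
    ← Scheme.Hom.comp_appTop, ← Category.assoc, h₁, hsq]

end Existence

variable [IsAlgClosed k] [IsProper c] [SmoothOfRelativeDimension 1 c]

include c in
/-- The regular locus of a nonconstant rational function is finite over the affine line. -/
theorem isFinite_toLine (x : C.functionField) (U : C.Opens) (hU : U = regularLocus x) [Nonempty U]
    (s : Γ(C, U)) (hs : C.germToFunctionField U s = x)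
    (hne : ∀ r, s ≠ gammaHom c U r) :
    IsFinite (toLine (U.ι ≫ c) (U.topIso.inv s)) := by
  have : SmoothOfRelativeDimension 1 (U.ι ≫ c) :=
    inferInstanceAs (SmoothOfRelativeDimension (0 + 1) (U.ι ≫ c))
  have := SmoothOfRelativeDimension.smooth 1 c
  have : IsLocallyNoetherian C := LocallyOfFiniteType.isLocallyNoetherian c
  have htop : gammaHom (U.ι ≫ c) ⊤ = U.topIso.inv.hom.comp (gammaHom c U) := by
    ext r
    simp only [gammaHom, CommRingCat.hom_comp, RingHom.comp_apply]
    rw [← CommRingCat.comp_apply (c.appLE ⊤ U le_top) U.topIso.inv]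
    congr 2
    rw [← ι_appLE_eq_topIso_inv U (fun q _ => q.2), Scheme.Hom.appLE_comp_appLE]
  have ht : ∀ r, U.topIso.inv s ≠ gammaHom (U.ι ≫ c) ⊤ r := fun r h => by
    rw [htop, RingHom.comp_apply] at h
    exact hne r ((ConcreteCategory.bijective_of_isIso U.topIso.inv).1 h)
  have hx : x ≠ 0 := fun h => by
    refine hne 0 (Scheme.germToFunctionField_injective C U ?_)
    rw [hs, h, map_zero, map_zero]
  have := locallyQuasiFinite_toLine (U.ι ≫ c) (U.topIso.inv s) ht
  set f := toLine (U.ι ≫ c) (U.topIso.inv s) with hf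
  have hcomp : f ≫ Spec.map (CommRingCat.ofHom Polynomial.C) = U.ι ≫ c := toLine_comp _ _
  have : IsSeparated (f ≫ Spec.map (CommRingCat.ofHom Polynomial.C)) := by
    rw [hcomp]; infer_instance
  have : LocallyOfFiniteType (f ≫ Spec.map (CommRingCat.ofHom Polynomial.C)) := by
    rw [hcomp]; infer_instance
  have : QuasiCompact (f ≫ Spec.map (CommRingCat.ofHom Polynomial.C)) := by
    rw [hcomp]; infer_instance
  have : IsSeparated f := IsSeparated.of_comp f (Spec.map (CommRingCat.ofHom Polynomial.C))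
  have : LocallyOfFiniteType f :=
    locallyOfFiniteType_of_comp f (Spec.map (CommRingCat.ofHom Polynomial.C))
  have : QuasiCompact f := QuasiCompact.of_comp f (Spec.map (CommRingCat.ofHom Polynomial.C))
  have : UniversallyClosed f := UniversallyClosed.of_valuativeCriterion f
    (existence_toLine c x U hU s hs hx (valuationRing_stalk c))
  have : IsProper f := ⟨⟩
  exact IsFinite.of_isProper_of_locallyQuasiFinite f

end Fermat.Agent.RelJac.Curve
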