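import Mathlib.LinearAlgebra.FreeModule.PID
import Mathlib.Algebra.Polynomial.Basis
import Mathlib.RingTheory.AlgebraTower
import Mathlib.AlgebraicGeometry.AlgClosed.Basic
import Fermat.Agent.RelJac.CurveModel
import Fermat.Agent.RelJac.CurveModel.Proper

/-!
A pointed proper smooth curve over an algebraically closed field has a two-chart model.
-/

open CategoryTheory AlgebraicGeometry Opposite IsLocalRing NeronModelInfra

namespace Fermat.Agent.RelJac.Curve

universe u

variable {k : Type u} [Field k] {C : Scheme.{u}} (c : C ⟶ Spec (CommRingCat.of k)) [IsIntegral C]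

theorem nonempty_top : Nonempty (⊤ : C.Opens) := ⟨⟨genericPoint C, trivial⟩⟩

attribute [local instance] nonempty_top

/-- The structure map `k → K(C)`. -/
noncomputable def constHom : k →+* C.functionField :=
  (C.germToFunctionField ⊤).hom.comp (gammaHom c ⊤)

theorem germToFunctionField_gammaHom (U : C.Opens) [Nonempty U] (r : k) :
    C.germToFunctionField U (gammaHom c U r) = constHom c r := by
  rw [← map_gammaHom c (le_top : U ≤ ⊤) r]
  exact germToFunctionField_res (homOfLE (le_top : U ≤ ⊤)) _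

omit [IsIntegral C] in
theorem fromSpec_comp_structure {U : C.Opens} (hU : IsAffineOpen U) :
    hU.fromSpec ≫ c = Spec.map (CommRingCat.ofHom (gammaHom c U)) := by
  rw [← IsAffineOpen.SpecMap_appLE_fromSpec c (isAffineOpen_top _) hU le_top,
    IsAffineOpen.fromSpec_top, Scheme.isoSpec_Spec_inv, ← Spec.map_comp]
  rfl

variable [IsAlgClosed k] [IsProper c] [SmoothOfRelativeDimension 1 c]

include c in
/-- The regular locus of a nonconstant function is affine, and its coordinate ring is free of
finite rank over the polynomial ring. -/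
theorem exists_chart (x : C.functionField) (U : C.Opens) (hU : U = regularLocus x) [Nonempty U]
    (s : Γ(C, U)) (hs : C.germToFunctionField U s = x) (hne : ∀ r, x ≠ constHom c r) :
    letI := (gammaHom c U).toAlgebra
    IsAffineOpen U ∧ IsDedekindDomain Γ(C, U) ∧ Algebra.FiniteType k Γ(C, U) ∧
      ∃ n, Nonempty (ShiftBasis k Γ(C, U) s (Fin n)) := by
  let : Algebra k Γ(C, U) := (gammaHom c U).toAlgebra
  have hne' : ∀ r, s ≠ gammaHom c U r := fun r h => hne r (by
    rw [← hs, h, germToFunctionField_gammaHom])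
  have hfin := isFinite_toLine c x U hU s hs hne'
  obtain ⟨haff, happ⟩ := (HasAffineProperty.iff_of_isAffine (P := @IsFinite)).1 hfin
  have hUaff : IsAffineOpen U := haff
  have hφ : (Polynomial.eval₂RingHom (gammaHom c U) s).Finite := by
    have e : CommRingCat.ofHom (Polynomial.eval₂RingHom (gammaHom c U) s) =
        (Scheme.ΓSpecIso (CommRingCat.of (Polynomial k))).inv ≫
          (toLine (U.ι ≫ c) (U.topIso.inv s)).appTop ≫ U.topIso.hom := by
      rw [toLine_appTop, Category.assoc, Iso.inv_hom_id_assoc]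
      have e0 : gammaHom (U.ι ≫ c) ⊤ = U.topIso.inv.hom.comp (gammaHom c U) := by
        ext r
        simp only [gammaHom, CommRingCat.hom_comp, RingHom.comp_apply]
        rw [← CommRingCat.comp_apply (c.appLE ⊤ U le_top) U.topIso.inv]
        congr 2
        rw [← ι_appLE_eq_topIso_inv U (fun q _ => q.2), Scheme.Hom.appLE_comp_appLE]
      ext : 1
      refine Polynomial.ringHom_ext (fun r => ?_) ?_
      · simp [toLineHom_C, e0, -Scheme.Opens.topIso_inv, -Scheme.Opens.topIso_hom]
      · simp [toLineHom_X, -Scheme.Opens.topIso_inv, -Scheme.Opens.topIso_hom]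
    have h := (RingHom.Finite.of_surjective U.topIso.hom.hom
      (ConcreteCategory.bijective_of_isIso U.topIso.hom).2).comp (happ.comp
      (RingHom.Finite.of_surjective (Scheme.ΓSpecIso (CommRingCat.of (Polynomial k))).inv.hom
        (ConcreteCategory.bijective_of_isIso
          (Scheme.ΓSpecIso (CommRingCat.of (Polynomial k))).inv).2))
    rw [← CommRingCat.hom_ofHom (Polynomial.eval₂RingHom (gammaHom c U) s), e]
    exact h
  have hft : Algebra.FiniteType k Γ(C, U) := by
    have := SmoothOfRelativeDimension.smooth 1 c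
    have h := HasRingHomProperty.appLE (P := @LocallyOfFiniteType) c inferInstance
      ⟨⊤, isAffineOpen_top _⟩ ⟨U, hUaff⟩ (le_top : U ≤ _)
    exact RingHom.finiteType_respectsIso.right _
      (Scheme.ΓSpecIso (CommRingCat.of k)).symm.commRingCatIsoToRingEquiv h
  refine ⟨hUaff, isDedekindDomain_of_isAffineOpen c hUaff, hft, ?_⟩
  let algX : Algebra (Polynomial k) Γ(C, U) :=
    (Polynomial.eval₂RingHom (gammaHom c U) s).toAlgebra
  have hmap : ∀ g : Polynomial k, algebraMap (Polynomial k) Γ(C, U) g = g.eval₂ (gammaHom c U) s :=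
    fun _ => rfl
  have : IsScalarTower k (Polynomial k) Γ(C, U) := IsScalarTower.of_algebraMap_eq fun r => by
    rw [hmap, Polynomial.algebraMap_eq, Polynomial.eval₂_C]
    rfl
  have : Module.Finite (Polynomial k) Γ(C, U) := hφ
  have : FaithfulSMul (Polynomial k) Γ(C, U) :=
    (faithfulSMul_iff_algebraMap_injective (Polynomial k) Γ(C, U)).2
      ((injective_iff_map_eq_zero (algebraMap (Polynomial k) Γ(C, U))).2 fun g hg =>
        (eval₂_eq_zero_iff_of_forall_ne (gammaHom c U) s hne' g).1 hg)
  let b := Module.finBasis (Polynomial k) Γ(C, U)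
  refine ⟨Module.finrank (Polynomial k) Γ(C, U),
    ⟨((Polynomial.basisMonomials k).smulTower b).reindex (Equiv.prodComm _ _), fun i m => ?_⟩⟩
  simp [Algebra.smul_def, hmap, Polynomial.coe_basisMonomials, Module.Basis.smulTower_apply,
    pow_succ']
  ring

end Fermat.Agent.RelJac.Curve

namespace Fermat.Agent.RelJac

universe u

attribute [local instance] Curve.nonempty_top

namespace Curve

variable {k : Type u} [Field k] {C : Scheme.{u}} {c : C ⟶ Spec (CommRingCat.of k)}

/-- A nonzero element of the maximal ideal of a local ring is not a constant function. -/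
theorem ne_constHom_of_mem_maximalIdeal [IsIntegral C] {p : C} {π : C.presheaf.stalk p}
    (hπ0 : π ≠ 0) (hπm : π ∈ maximalIdeal (C.presheaf.stalk p)) (r : k) :
    algebraMap (C.presheaf.stalk p) C.functionField π ≠ constHom c r := by
  intro h
  have h' : π = (C.presheaf.germ ⊤ p trivial).hom.comp (gammaHom c ⊤) r :=
    IsFractionRing.injective (C.presheaf.stalk p) C.functionField (by
      rw [h, RingHom.comp_apply]
      exact (Scheme.algebraMap_germ_eq_germToFunctionField C (U := (⊤ : C.Opens)) trivial _).symm)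
  rcases eq_or_ne r 0 with rfl | hr
  · exact hπ0 (h'.trans (map_zero _))
  · exact (mem_maximalIdeal _).1 hπm (h' ▸ (IsUnit.mk0 r hr).map _)

variable {ε : SchemeHomOver (𝟙 (Spec (CommRingCat.of k))) c}

/-- A rational point in an affine open subset is given by a retraction of the constants. -/
theorem exists_retraction {U : C.Opens} (hU : IsAffineOpen U) (hpU : ε.1 (closedPoint k) ∈ U) :
    ∃ e : CommRingCat.of Γ(C, U) ⟶ CommRingCat.of k,
      Spec.map e ≫ hU.fromSpec = ε.1 ∧ ∀ r, e (gammaHom c U r) = r := by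
  have hεU : Set.range ε.1 ⊆ Set.range hU.fromSpec := by
    rw [hU.range_fromSpec]
    rintro _ ⟨q, rfl⟩
    have : Subsingleton (Spec (CommRingCat.of k)) :=
      inferInstanceAs (Subsingleton (PrimeSpectrum k))
    rw [Subsingleton.elim q (closedPoint k)]
    exact hpU
  have he : Spec.map (Spec.preimage (IsOpenImmersion.lift hU.fromSpec ε.1 hεU)) ≫ hU.fromSpec =
      ε.1 := by
    rw [Spec.map_preimage]; exact IsOpenImmersion.lift_fac _ _ _
  refine ⟨_, he, fun r => ?_⟩
  have h : CommRingCat.ofHom (gammaHom c U) ≫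
      Spec.preimage (IsOpenImmersion.lift hU.fromSpec ε.1 hεU) = 𝟙 (CommRingCat.of k) :=
    Spec.map_injective (by
      rw [Spec.map_comp, ← fromSpec_comp_structure c hU, ← Category.assoc, he, ε.2, Spec.map_id])
  exact congrArg (fun f : CommRingCat.of k ⟶ CommRingCat.of k => f.hom r) h

/-- A function whose germ at a rational point is a non-unit vanishes at that point. -/
theorem retraction_eq_zero {U : C.Opens} (hU : IsAffineOpen U)
    {e : CommRingCat.of Γ(C, U) ⟶ CommRingCat.of k} (he : Spec.map e ≫ hU.fromSpec = ε.1)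
    (hpU : ε.1 (closedPoint k) ∈ U) {s : Γ(C, U)}
    (hs : C.presheaf.germ U _ hpU s ∈ maximalIdeal (C.presheaf.stalk (ε.1 (closedPoint k)))) :
    e s = 0 := by
  by_contra h0
  have hp' : hU.fromSpec (Spec.map e (closedPoint k)) = ε.1 (closedPoint k) := by
    rw [← Scheme.Hom.comp_apply, he]
  have hz : Spec.map e (closedPoint k) ∈ hU.fromSpec ⁻¹ᵁ C.basicOpen s := by
    rw [hU.fromSpec_preimage_basicOpen]
    show ¬ e s ∈ (closedPoint k).asIdeal
    intro hmem
    exact (closedPoint k).isPrime.ne_top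
      (Ideal.eq_top_of_isUnit_mem _ hmem (IsUnit.mk0 (e s : k) h0))
  have hz' : ε.1 (closedPoint k) ∈ C.basicOpen s := hp' ▸ hz
  rw [Scheme.mem_basicOpen C s _ hpU] at hz'
  exact (mem_maximalIdeal _).1 hs hz'

/-- Two affine open subsets with affine intersection form a pullback square. -/
theorem isPullback_fromSpec_inf {U V : C.Opens} (hU : IsAffineOpen U) (hV : IsAffineOpen V)
    (hUV : IsAffineOpen (U ⊓ V)) :
    IsPullback (Spec.map (C.presheaf.map (homOfLE (inf_le_left : U ⊓ V ≤ U)).op))
      (Spec.map (C.presheaf.map (homOfLE (inf_le_right : U ⊓ V ≤ V)).op))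
      hU.fromSpec hV.fromSpec := by
  have hP := hU.map_fromSpec hUV (homOfLE (inf_le_left : U ⊓ V ≤ U)).op
  have hQ := hV.map_fromSpec hUV (homOfLE (inf_le_right : U ⊓ V ≤ V)).op
  have : IsOpenImmersion
      (Spec.map (C.presheaf.map (homOfLE (inf_le_right : U ⊓ V ≤ V)).op) ≫ hV.fromSpec) := by
    rw [hQ]; infer_instance
  have := IsOpenImmersion.of_comp
    (Spec.map (C.presheaf.map (homOfLE (inf_le_right : U ⊓ V ≤ V)).op)) hV.fromSpec
  refine IsOpenImmersion.isPullback _ _ _ _ (hQ.trans hP.symm) ?_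
  apply TopologicalSpace.Opens.ext
  ext q
  constructor
  · intro hq
    have hq' : hV.fromSpec q ∈ (U ⊓ V : C.Opens) :=
      ⟨hU.range_fromSpec.le hq, hV.range_fromSpec.le ⟨q, rfl⟩⟩
    obtain ⟨z, hz⟩ := hUV.range_fromSpec.ge hq'
    refine ⟨z, hV.fromSpec.isOpenEmbedding.injective ?_⟩
    rw [← Scheme.Hom.comp_apply, hQ, hz]
  · rintro ⟨z, rfl⟩
    refine hU.range_fromSpec.ge ?_
    rw [← Scheme.Hom.comp_apply, hQ]
    exact (hUV.range_fromSpec.le ⟨z, rfl⟩).1

end Curve

open Curve in
/-- A pointed proper smooth integral curve over an algebraically closed field has a model by two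
charts finite free over the two standard charts of the projective line. -/
theorem exists_curveModel (k : Type u) [Field k] [IsAlgClosed k] {C : Scheme.{u}}
    (c : C ⟶ Spec (CommRingCat.of k)) [IsProper c] [SmoothOfRelativeDimension 1 c] [IsIntegral C]
    (ε : SchemeHomOver (𝟙 (Spec (CommRingCat.of k))) c) : Nonempty (CurveModel c ε) := by
  let p : C := ε.1 (closedPoint k)
  have hpc : IsClosed ({p} : Set C) :=
    ((pointEquivClosedPoint c) ⟨ε.1, ε.2⟩).2
  obtain ⟨π, hπm, hπ0⟩ := Submodule.exists_mem_ne_zero_of_ne_bot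
    (mt isField_iff_maximalIdeal_eq.2 (not_isField_stalk_of_isClosed c p hpc))
  have hK : Function.Injective (algebraMap (C.presheaf.stalk p) C.functionField) :=
    IsFractionRing.injective _ _
  obtain ⟨x, hxdef⟩ : ∃ x, x = algebraMap (C.presheaf.stalk p) C.functionField π := ⟨_, rfl⟩
  have hx0 : x ≠ 0 := hxdef ▸ (map_ne_zero_iff _ hK).2 hπ0
  have hxne : ∀ r, x ≠ constHom c r := fun r =>
    hxdef ▸ ne_constHom_of_mem_maximalIdeal hπ0 hπm r
  have hyne : ∀ r, x⁻¹ ≠ constHom c r := fun r h => hxne r⁻¹ (by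
    rw [map_inv₀, ← h, inv_inv])
  obtain ⟨U, hUdef⟩ : ∃ U, U = regularLocus x := ⟨_, rfl⟩
  obtain ⟨V, hVdef⟩ : ∃ V, V = regularLocus x⁻¹ := ⟨_, rfl⟩
  have hgU : genericPoint C ∈ U := hUdef.ge (genericPoint_mem_regularLocus x)
  have hgV : genericPoint C ∈ V := hVdef.ge (genericPoint_mem_regularLocus x⁻¹)
  have : Nonempty U := ⟨⟨_, hgU⟩⟩
  have : Nonempty V := ⟨⟨_, hgV⟩⟩
  have : Nonempty (U ⊓ V : C.Opens) := ⟨⟨_, hgU, hgV⟩⟩
  obtain ⟨s, hs⟩ := exists_section x U hUdef.le
  obtain ⟨w, hw⟩ := exists_section x⁻¹ V hVdef.le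
  have key : ∀ (z : C.functionField), z ≠ 0 → ∀ (A B : C.Opens), A = regularLocus z →
      B = regularLocus z⁻¹ → ∀ [Nonempty A] (t : Γ(C, A)), C.germToFunctionField A t = z →
      A ⊓ B = C.basicOpen t := by
    intro z hz A B hA hB _ t ht
    subst hA hB
    exact regularLocus_inf_inv hz t ht
  have hUV : U ⊓ V = C.basicOpen s := key x hx0 U V hUdef hVdef s hs
  have hVU : U ⊓ V = C.basicOpen w :=
    inf_comm U V ▸ key x⁻¹ (inv_ne_zero hx0) V U hVdef (by rw [inv_inv]; exact hUdef) w hw
  have htop : ∀ q : C, q ∈ U ∨ q ∈ V := fun q => by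
    have : q ∈ regularLocus x ⊔ regularLocus x⁻¹ := by
      rw [regularLocus_sup_inv (valuationRing_stalk c)]; trivial
    rw [← hUdef, ← hVdef] at this
    exact this
  let : Algebra k Γ(C, U) := (gammaHom c U).toAlgebra
  let : Algebra k Γ(C, V) := (gammaHom c V).toAlgebra
  let : Algebra k Γ(C, U ⊓ V) := (gammaHom c (U ⊓ V)).toAlgebra
  let : Algebra Γ(C, U) Γ(C, U ⊓ V) :=
    (C.presheaf.map (homOfLE (inf_le_left : U ⊓ V ≤ U)).op).hom.toAlgebra
  let : Algebra Γ(C, V) Γ(C, U ⊓ V) :=
    (C.presheaf.map (homOfLE (inf_le_right : U ⊓ V ≤ V)).op).hom.toAlgebra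
  have : IsScalarTower k Γ(C, U) Γ(C, U ⊓ V) :=
    IsScalarTower.of_algebraMap_eq fun r => (map_gammaHom c inf_le_left r).symm
  have : IsScalarTower k Γ(C, V) Γ(C, U ⊓ V) :=
    IsScalarTower.of_algebraMap_eq fun r => (map_gammaHom c inf_le_right r).symm
  obtain ⟨hUa, hUD, hUft, n, ⟨bU⟩⟩ := exists_chart c x U hUdef s hs hxne
  obtain ⟨hVa, hVD, hVft, m, ⟨bV⟩⟩ := exists_chart c x⁻¹ V hVdef w hw hyne
  have hUVa : IsAffineOpen (U ⊓ V) := hUV ▸ hUa.basicOpen s
  let T : TwoChart.{u} k := { P := Γ(C, U), Q := Γ(C, V), L := Γ(C, U ⊓ V) }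
  let cl : CurveLike T :=
    { x := s
      y := w
      x_mul_y := by
        apply Scheme.germToFunctionField_injective C (U ⊓ V)
        rw [map_mul, map_one]
        exact (congrArg₂ (· * ·) ((germToFunctionField_res _ s).trans hs)
          ((germToFunctionField_res _ w).trans hw)).trans (mul_inv_cancel₀ hx0)
      awayP := hUa.isLocalization_of_eq_basicOpen s (homOfLE inf_le_left) hUV
      awayQ := hVa.isLocalization_of_eq_basicOpen w (homOfLE inf_le_right) hVU
      freeL := inferInstance
      ιP := Fin n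
      finP := inferInstance
      basisP := bU.basis
      basisP_succ := bU.basis_succ
      ιQ := Fin m
      finQ := inferInstance
      basisQ := bV.basis
      basisQ_succ := bV.basis_succ }
  have hpU : p ∈ U := hUdef.ge ⟨π, hxdef.symm⟩
  obtain ⟨e₀, he₀, he₀k⟩ := exists_retraction hUa hpU
  have he₀s : e₀ s = 0 := retraction_eq_zero hUa he₀ hpU (by
    rwa [show C.presheaf.germ U p hpU s = π from hK (by
      rw [Scheme.algebraMap_germ_eq_germToFunctionField, hs, hxdef])])
  refine ⟨{
    T := T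
    curveLike := cl
    domainP := inferInstanceAs (IsDomain Γ(C, U))
    domainQ := inferInstanceAs (IsDomain Γ(C, V))
    dedekindP := hUD
    dedekindQ := hVD
    finiteTypeP := hUft
    finiteTypeQ := hVft
    jP := hUa.fromSpec
    jQ := hVa.fromSpec
    isOpenImmersionP := inferInstanceAs (IsOpenImmersion hUa.fromSpec)
    isOpenImmersionQ := inferInstanceAs (IsOpenImmersion hVa.fromSpec)
    jP_over := fromSpec_comp_structure c hUa
    jQ_over := fromSpec_comp_structure c hVa
    cover := Set.eq_univ_of_forall fun q => by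
      rw [hUa.range_fromSpec, hVa.range_fromSpec]
      exact htop q
    isPullback := ?_
    e := { e₀.hom with commutes' := he₀k }
    e_spec := he₀
    e_x := he₀s }⟩
  exact isPullback_fromSpec_inf hUa hVa hUVa

end Fermat.Agent.RelJac
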